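import Fermat.Agent.S22.Defs

set_option autoImplicit false

namespace Fermat.Agent.S22

open UpperHalfPlane hiding I
open Real Complex Filter
open scoped Manifold MatrixGroups ModularForm Topology Polynomial
open Derivative

theorem qParam_add_period {h : ℝ} (hh : h ≠ 0) (z : ℂ) :
    Function.Periodic.qParam h (z + h) = Function.Periodic.qParam h z := by
  have hh' : (h : ℂ) ≠ 0 := by exact_mod_cast hh
  unfold Function.Periodic.qParam
  rw [show 2 * (π : ℂ) * I * (z + h) / h = 2 * π * I * z / h + 2 * π * I by field_simp]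
  rw [Complex.exp_add, Complex.exp_two_pi_mul_I, mul_one]

theorem hasDerivAt_qParam (h : ℝ) (z : ℂ) :
    HasDerivAt (Function.Periodic.qParam h)
      (Function.Periodic.qParam h z * (2 * π * I / h)) z := by
  unfold Function.Periodic.qParam
  have h1 : HasDerivAt (fun z : ℂ => 2 * (π : ℂ) * I * z / h) (2 * π * I / h) z := by
    have := ((hasDerivAt_id z).const_mul (2 * (π : ℂ) * I)).div_const (h : ℂ)
    simpa using this
  exact h1.cexp

namespace IsCuspidalPeriodic

variable {h : ℝ} {u v : ℍ → ℂ}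

theorem mdiff (hh : 0 < h) (hu : IsCuspidalPeriodic h u) : MDiff u := by
  obtain ⟨g, hg, -, hgu⟩ := hu
  rw [UpperHalfPlane.mdifferentiable_iff]
  have key : DifferentiableOn ℂ (fun z : ℂ => g (Function.Periodic.qParam h z))
      {z | 0 < z.im} := by
    intro z hz
    have hq : Function.Periodic.qParam h z ∈ Metric.ball (0 : ℂ) 1 := by
      simpa using Function.Periodic.norm_qParam_lt_one hh hz
    have hgd : DifferentiableAt ℂ g (Function.Periodic.qParam h z) :=
      hg.differentiableAt (Metric.isOpen_ball.mem_nhds hq)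
    have hqd : DifferentiableAt ℂ (Function.Periodic.qParam h) z :=
      Function.Periodic.differentiable_qParam.differentiableAt
    exact (hgd.comp z hqd).differentiableWithinAt
  refine key.congr fun z hz => ?_
  simp [Function.comp_apply, hgu, ofComplex_apply_of_im_pos hz]

theorem tendsto_atImInfty (hh : 0 < h) (hu : IsCuspidalPeriodic h u) :
    Tendsto u atImInfty (𝓝 0) := by
  obtain ⟨g, hg, hg0, hgu⟩ := hu
  have hcont : ContinuousAt g 0 :=
    (hg.differentiableAt (Metric.ball_mem_nhds 0 one_pos)).continuousAt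
  have h1 : Tendsto (fun τ : ℍ => g (Function.Periodic.qParam h τ)) atImInfty (𝓝 (g 0)) :=
    hcont.tendsto.comp (UpperHalfPlane.qParam_tendsto_atImInfty hh)
  rw [hg0] at h1
  exact h1.congr fun τ => (hgu τ).symm

theorem isZeroAtImInfty (hh : 0 < h) (hu : IsCuspidalPeriodic h u) : IsZeroAtImInfty u :=
  tendsto_atImInfty hh hu

theorem zero (h : ℝ) : IsCuspidalPeriodic h (0 : ℍ → ℂ) :=
  ⟨fun _ => 0, differentiableOn_const 0, rfl, fun _ => rfl⟩

theorem add (hu : IsCuspidalPeriodic h u) (hv : IsCuspidalPeriodic h v) :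
    IsCuspidalPeriodic h (u + v) := by
  obtain ⟨g₁, hg₁, h0₁, hu₁⟩ := hu
  obtain ⟨g₂, hg₂, h0₂, hu₂⟩ := hv
  refine ⟨fun q => g₁ q + g₂ q, hg₁.add hg₂, by simp [h0₁, h0₂], fun τ => ?_⟩
  simp [hu₁, hu₂]

theorem smul (c : ℂ) (hu : IsCuspidalPeriodic h u) : IsCuspidalPeriodic h (c • u) := by
  obtain ⟨g₁, hg₁, h0₁, hu₁⟩ := hu
  refine ⟨fun q => c * g₁ q, hg₁.const_mul c, by simp [h0₁], fun τ => ?_⟩
  simp [hu₁]

theorem sub (hu : IsCuspidalPeriodic h u) (hv : IsCuspidalPeriodic h v) :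
    IsCuspidalPeriodic h (u - v) := by
  obtain ⟨g₁, hg₁, h0₁, hu₁⟩ := hu
  obtain ⟨g₂, hg₂, h0₂, hu₂⟩ := hv
  refine ⟨fun q => g₁ q - g₂ q, hg₁.sub hg₂, by simp [h0₁, h0₂], fun τ => ?_⟩
  simp [hu₁, hu₂]

/-- `u` is invariant under the real translation by `h`. -/
theorem vadd_eq (hh : 0 < h) (hu : IsCuspidalPeriodic h u) (τ : ℍ) : u (h +ᵥ τ) = u τ := by
  obtain ⟨g, -, -, hgu⟩ := hu
  rw [hgu, hgu, UpperHalfPlane.coe_vadd, add_comm, qParam_add_period hh.ne']

theorem exists_primitive (hh : 0 < h) (hu : IsCuspidalPeriodic h u) :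
    ∃ v : ℍ → ℂ, IsCuspidalPeriodic h v ∧ D v = u := by
  obtain ⟨g, hg, hg0, hgu⟩ := hu
  have hh' : (h : ℂ) ≠ 0 := by exact_mod_cast hh.ne'
  have hds : DifferentiableOn ℂ (dslope g 0) (Metric.ball 0 1) :=
    (differentiableOn_dslope (Metric.ball_mem_nhds 0 one_pos)).mpr hg
  have hf₁ : DifferentiableOn ℂ (fun q : ℂ => (h : ℂ) * dslope g 0 q) (Metric.ball 0 1) :=
    hds.const_mul _
  obtain ⟨G₀, hG₀⟩ := hf₁.isExactOn_ball
  refine ⟨fun τ => G₀ (Function.Periodic.qParam h τ) - G₀ 0,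
    ⟨fun q => G₀ q - G₀ 0, ?_, by simp, fun τ => rfl⟩, ?_⟩
  · intro q hq
    exact ((hG₀ q hq).differentiableAt.sub_const _).differentiableWithinAt
  · funext τ
    have hq : Function.Periodic.qParam h (τ : ℂ) ∈ Metric.ball (0 : ℂ) 1 := by
      simpa using Function.Periodic.norm_qParam_lt_one hh τ.im_pos
    have hq0 : Function.Periodic.qParam h (τ : ℂ) ≠ 0 := Function.Periodic.qParam_ne_zero _
    have hcomp : HasDerivAt (fun z : ℂ => G₀ (Function.Periodic.qParam h z) - G₀ 0)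
        ((h : ℂ) * dslope g 0 (Function.Periodic.qParam h τ) *
          (Function.Periodic.qParam h τ * (2 * π * I / h))) (τ : ℂ) :=
      ((hG₀ _ hq).comp (τ : ℂ) (hasDerivAt_qParam h τ)).sub_const _
    have hev : ((fun τ : ℍ => G₀ (Function.Periodic.qParam h τ) - G₀ 0) ∘ ofComplex)
        =ᶠ[𝓝 (τ : ℂ)] fun z : ℂ => G₀ (Function.Periodic.qParam h z) - G₀ 0 := by
      filter_upwards [isOpen_upperHalfPlaneSet.mem_nhds τ.im_pos] with w hw
      simp [Function.comp_apply, ofComplex_apply_of_im_pos hw]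
    have hderiv := (hcomp.congr_of_eventuallyEq hev).deriv
    simp only [normalizedDerivOfComplex]
    rw [hderiv, hgu τ, dslope_of_ne _ hq0, slope_def_field, hg0]
    have h2pi : (2 * (π : ℂ) * I) ≠ 0 := Complex.two_pi_I_ne_zero
    field_simp
    ring

theorem exists_iterate_primitive (hh : 0 < h) (hu : IsCuspidalPeriodic h u) (n : ℕ) :
    ∃ v : ℍ → ℂ, IsCuspidalPeriodic h v ∧ D^[n] v = u := by
  induction n generalizing u with
  | zero => exact ⟨u, hu, rfl⟩
  | succ n ih =>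
    obtain ⟨v₁, hv₁, hD₁⟩ := exists_primitive hh hu
    obtain ⟨v, hv, hD⟩ := ih hv₁
    exact ⟨v, hv, by rw [Function.iterate_succ_apply', hD, hD₁]⟩

end IsCuspidalPeriodic

/-- Holomorphic, `h`-periodic and zero at `i∞` implies cuspidal periodic. -/
theorem isCuspidalPeriodic_of_periodic {h : ℝ} {u : ℍ → ℂ} (hh : 0 < h)
    (hper : Function.Periodic (u ∘ ofComplex) h) (hhol : MDiff u) (hzero : IsZeroAtImInfty u) :
    IsCuspidalPeriodic h u := by
  refine ⟨cuspFunction h u, ?_, hzero.cuspFunction_apply_zero hh, fun τ => ?_⟩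
  · exact UpperHalfPlane.differentiableOn_cuspFunction_ball hh hper hhol hzero.isBoundedAtImInfty
  · exact (UpperHalfPlane.eq_cuspFunction τ hh.ne' hper).symm

end Fermat.Agent.S22
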