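import Fermat.Agent.S22.Bol

set_option autoImplicit false

namespace Fermat.Agent.S22

open UpperHalfPlane hiding I
open Real Complex Filter
open scoped Manifold MatrixGroups ModularForm Topology Polynomial
open Derivative

theorem infinite_uhp_set : Set.Infinite {z : ℂ | 0 < z.im} := by
  refine Set.infinite_of_injective_forall_mem (f := fun n : ℕ => ((n : ℂ) + 1) * I) ?_ ?_
  · intro a b hab
    have h2 : ((a : ℂ) + 1) = ((b : ℂ) + 1) := mul_right_cancel₀ I_ne_zero hab
    exact_mod_cast add_right_cancel h2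
  · intro n
    show 0 < (((n : ℂ) + 1) * I).im
    have : (((n : ℂ) + 1) * I).im = (n : ℝ) + 1 := by simp
    rw [this]
    positivity

theorem poly_eq_zero_of_eval_uhp (P : ℂ[X]) (h : ∀ τ : ℍ, P.eval (τ : ℂ) = 0) : P = 0 := by
  apply Polynomial.eq_zero_of_infinite_isRoot
  refine infinite_uhp_set.mono ?_
  intro z hz
  exact h ⟨z, hz⟩

theorem poly_eq_zero_of_tendsto (P : ℂ[X])
    (h : Tendsto (fun y : ℝ => P.eval ((y : ℂ) * I)) atTop (𝓝 0)) : P = 0 := by
  by_cases hdeg : 0 < P.degree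
  · exfalso
    have hz : Tendsto (fun y : ℝ => ‖(y : ℂ) * I‖) atTop atTop := by
      have : (fun y : ℝ => ‖(y : ℂ) * I‖) = fun y : ℝ => |y| := by
        funext y
        simp
      rw [this]
      exact tendsto_abs_atTop_atTop
    have h1 := Polynomial.tendsto_norm_atTop P hdeg hz
    exact not_tendsto_nhds_of_tendsto_atTop h1 _ h.norm
  · have hle : P.degree ≤ 0 := not_lt.mp hdeg
    have hC := Polynomial.eq_C_of_degree_le_zero hle
    rw [hC] at h
    simp only [Polynomial.eval_C] at h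
    have h0 : P.coeff 0 = 0 := tendsto_nhds_unique tendsto_const_nhds h
    rw [hC, h0, Polynomial.C_0]

theorem poly_eval_const_of_periodic (P : ℂ[X]) (h : ℝ) (hh : h ≠ 0)
    (hper : ∀ τ : ℍ, P.eval ((τ : ℂ) + h) = P.eval (τ : ℂ)) :
    ∃ c : ℂ, ∀ z : ℂ, P.eval z = c := by
  have hcomp : P.comp (Polynomial.X + Polynomial.C (h : ℂ)) - P = 0 := by
    apply poly_eq_zero_of_eval_uhp
    intro τ
    simp [hper τ]
  have hshift : ∀ z : ℂ, P.eval (z + h) = P.eval z := by
    intro z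
    have := congrArg (Polynomial.eval z) hcomp
    simpa [sub_eq_zero] using this
  have hnat : ∀ n : ℕ, P.eval ((n : ℂ) * h) = P.eval 0 := by
    intro n
    induction n with
    | zero => simp
    | succ n ih =>
      rw [← ih, ← hshift ((n : ℂ) * h)]
      congr 1
      push_cast
      ring
  have hP : P - Polynomial.C (P.eval 0) = 0 := by
    apply Polynomial.eq_zero_of_infinite_isRoot
    have hinf : Set.Infinite (Set.range fun n : ℕ => (n : ℂ) * (h : ℂ)) := by
      apply Set.infinite_range_of_injective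
      intro a b hab
      have hh' : (h : ℂ) ≠ 0 := by exact_mod_cast hh
      have := mul_right_cancel₀ hh' hab
      exact_mod_cast this
    refine hinf.mono ?_
    rintro _ ⟨n, rfl⟩
    simp [Polynomial.IsRoot, hnat n]
  refine ⟨P.eval 0, fun z => ?_⟩
  have := congrArg (Polynomial.eval z) hP
  simpa [sub_eq_zero] using this

/-- the coordinate function. -/
theorem mdiff_coe_pow (j : ℕ) : MDiff (fun τ : ℍ => (τ : ℂ) ^ j) := by
  rw [UpperHalfPlane.mdifferentiable_iff]
  have h : DifferentiableOn ℂ (fun z : ℂ => z ^ j) {z | 0 < z.im} :=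
    (differentiable_id.pow j).differentiableOn
  refine h.congr fun z hz => ?_
  simp [Function.comp_apply, ofComplex_apply_of_im_pos hz]

theorem D_coe_pow_succ (j : ℕ) :
    D (fun τ : ℍ => (τ : ℂ) ^ (j + 1)) =
      (((j : ℂ) + 1) * (2 * π * I)⁻¹) • fun τ : ℍ => (τ : ℂ) ^ j := by
  funext τ
  have hev : ((fun τ : ℍ => (τ : ℂ) ^ (j + 1)) ∘ ofComplex) =ᶠ[𝓝 (τ : ℂ)]
      fun z : ℂ => z ^ (j + 1) := by
    filter_upwards [isOpen_upperHalfPlaneSet.mem_nhds τ.im_pos] with w hw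
    simp [Function.comp_apply, ofComplex_apply_of_im_pos hw]
  have hd : HasDerivAt (fun z : ℂ => z ^ (j + 1)) (((j + 1 : ℕ) : ℂ) * (τ : ℂ) ^ j) (τ : ℂ) := by
    simpa using hasDerivAt_pow (j + 1) (τ : ℂ)
  have := (hd.congr_of_eventuallyEq hev).deriv
  simp only [normalizedDerivOfComplex, this, Pi.smul_apply, smul_eq_mul]
  push_cast
  ring

theorem D_const_fun (c : ℂ) : D (fun _ : ℍ => c) = 0 := normalizedDerivOfComplex_const c

theorem iterate_D_coe_pow (n : ℕ) :
    D^[n] (fun τ : ℍ => (τ : ℂ) ^ n) =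
      fun _ : ℍ => ((n.factorial : ℂ) * ((2 * π * I)⁻¹) ^ n) := by
  induction n with
  | zero => funext τ; simp
  | succ n ih =>
    rw [Function.iterate_succ_apply, D_coe_pow_succ, iterate_D_smul _ _ (mdiff_coe_pow n), ih]
    funext τ
    simp only [Pi.smul_apply, smul_eq_mul, Nat.factorial_succ]
    push_cast
    ring

theorem exists_const_of_D_eq_zero {R : ℍ → ℂ} (hR : MDiff R) (h : D R = 0) :
    ∃ c : ℂ, R = fun _ => c := by
  refine ⟨R UpperHalfPlane.I, funext fun τ => ?_⟩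
  have hdiff := UpperHalfPlane.mdifferentiable_iff.mp hR
  have hderiv : Set.EqOn (deriv (R ∘ ofComplex)) 0 {z : ℂ | 0 < z.im} := by
    intro z hz
    have h1 := congrFun h ⟨z, hz⟩
    simp only [normalizedDerivOfComplex, Pi.zero_apply] at h1
    have h2pi : (2 * (π : ℂ) * I)⁻¹ ≠ 0 := inv_ne_zero Complex.two_pi_I_ne_zero
    exact (mul_eq_zero.mp h1).resolve_left h2pi
  have hconv : Convex ℝ {z : ℂ | 0 < z.im} := by
    have : {z : ℂ | 0 < z.im} = Complex.imCLM ⁻¹' Set.Ioi 0 := rfl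
    rw [this]
    exact (convex_Ioi 0).is_linear_preimage Complex.imCLM.toLinearMap.isLinear
  have key := IsOpen.is_const_of_deriv_eq_zero isOpen_upperHalfPlaneSet
    hconv.isPreconnected hdiff hderiv τ.im_pos UpperHalfPlane.I.im_pos
  rw [Function.comp_apply, Function.comp_apply, ofComplex_apply, ofComplex_apply] at key
  exact key

/-- A holomorphic function on `ℍ` killed by `D^n` is a polynomial of degree `< n`. -/
theorem exists_poly_of_iterate_D_eq_zero (n : ℕ) {Q : ℍ → ℂ} (hQ : MDiff Q)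
    (h : D^[n] Q = 0) :
    ∃ P : ℂ[X], P.degree < n ∧ ∀ τ : ℍ, Q τ = P.eval (τ : ℂ) := by
  induction n generalizing Q with
  | zero =>
    refine ⟨0, ?_, fun τ => ?_⟩
    · rw [Polynomial.degree_zero]
      exact WithBot.bot_lt_coe _
    · have := congrFun h τ
      simpa using this
  | succ n ih =>
    have hR : MDiff (D^[n] Q) := mdiff_iterate_D n hQ
    have hDR : D (D^[n] Q) = 0 := by
      rw [← Function.iterate_succ_apply' D n]; exact h
    obtain ⟨c, hc⟩ := exists_const_of_D_eq_zero hR hDR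
    set κ : ℂ := (n.factorial : ℂ) * ((2 * π * I)⁻¹) ^ n with hκ
    have hκ0 : κ ≠ 0 := by
      rw [hκ]
      exact mul_ne_zero (by exact_mod_cast n.factorial_ne_zero)
        (pow_ne_zero _ (inv_ne_zero Complex.two_pi_I_ne_zero))
    have hmon := mdiff_coe_pow n
    have hQ₁ : MDiff (Q - (c / κ) • fun τ : ℍ => (τ : ℂ) ^ n) := hQ.sub (hmon.const_smul _)
    have hD₁ : D^[n] (Q - (c / κ) • fun τ : ℍ => (τ : ℂ) ^ n) = 0 := by
      rw [iterate_D_sub n hQ (hmon.const_smul _), iterate_D_smul n _ hmon, iterate_D_coe_pow, hc]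
      funext τ
      simp only [Pi.sub_apply, Pi.smul_apply, smul_eq_mul, Pi.zero_apply]
      rw [← hκ]
      field_simp
      ring
    obtain ⟨P₁, hdeg, hP₁⟩ := ih hQ₁ hD₁
    refine ⟨P₁ + Polynomial.C (c / κ) * Polynomial.X ^ n, ?_, fun τ => ?_⟩
    · refine lt_of_le_of_lt (Polynomial.degree_add_le _ _) (max_lt ?_ ?_)
      · exact lt_trans hdeg (by exact_mod_cast Nat.lt_succ_self n)
      · exact lt_of_le_of_lt (Polynomial.degree_C_mul_X_pow_le _ _)
          (by exact_mod_cast Nat.lt_succ_self n)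
    · have := hP₁ τ
      simp only [Pi.sub_apply, Pi.smul_apply, smul_eq_mul] at this
      rw [Polynomial.eval_add, Polynomial.eval_mul, Polynomial.eval_C, Polynomial.eval_pow,
        Polynomial.eval_X, ← this]
      ring


theorem polySlash_add {R : Type*} [CommRing R] (m : ℕ) (a b c d : R) (P Q : R[X]) :
    polySlash m a b c d (P + Q) = polySlash m a b c d P + polySlash m a b c d Q := by
  simp only [polySlash, Polynomial.coeff_add, Polynomial.C_add, add_mul, Finset.sum_add_distrib]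

theorem polySlash_zero {R : Type*} [CommRing R] (m : ℕ) (a b c d : R) :
    polySlash m a b c d (0 : R[X]) = 0 := by
  simp [polySlash]

theorem polySlash_coeff (m : ℕ) (a b c d : ℤ) (P : ℂ[X]) (i : ℕ) :
    (polySlash m (a : ℂ) (b : ℂ) (c : ℂ) (d : ℂ) P).coeff i =
      ∑ j ∈ Finset.range (m + 1), (slashCoeff m a b c d j i : ℂ) * P.coeff j := by
  rw [polySlash, Polynomial.finsetSum_coeff]
  refine Finset.sum_congr rfl fun j _ => ?_
  have hmap : ((Polynomial.C (a : ℂ) * Polynomial.X + Polynomial.C (b : ℂ)) ^ j *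
      (Polynomial.C (c : ℂ) * Polynomial.X + Polynomial.C (d : ℂ)) ^ (m - j) : ℂ[X]) =
      Polynomial.map (Int.castRingHom ℂ)
        ((Polynomial.C a * Polynomial.X + Polynomial.C b) ^ j *
          (Polynomial.C c * Polynomial.X + Polynomial.C d) ^ (m - j) : ℤ[X]) := by
    simp
  rw [mul_assoc, Polynomial.coeff_C_mul, hmap, Polynomial.coeff_map, slashCoeff, mul_comm]
  rfl

theorem polySlash_degree_lt {R : Type*} [CommRing R] (m : ℕ) (a b c d : R) (P : R[X]) :
    (polySlash m a b c d P).degree < (m + 1 : ℕ) := by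
  rw [← Polynomial.mem_degreeLT, polySlash]
  refine Submodule.sum_mem _ fun j hj => ?_
  rw [Polynomial.mem_degreeLT]
  have hj' : j ≤ m := Nat.lt_succ_iff.mp (Finset.mem_range.mp hj)
  have h1 : (Polynomial.C a * Polynomial.X + Polynomial.C b : R[X]).natDegree ≤ 1 :=
    Polynomial.natDegree_linear_le
  have h2 : (Polynomial.C c * Polynomial.X + Polynomial.C d : R[X]).natDegree ≤ 1 :=
    Polynomial.natDegree_linear_le
  have h3 : (Polynomial.C (P.coeff j) * (Polynomial.C a * Polynomial.X + Polynomial.C b) ^ j *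
      (Polynomial.C c * Polynomial.X + Polynomial.C d) ^ (m - j)).natDegree ≤ 0 + j * 1 + (m - j) * 1 :=
    Polynomial.natDegree_mul_le_of_le
      (Polynomial.natDegree_mul_le_of_le (Polynomial.natDegree_C _).le
        (Polynomial.natDegree_pow_le_of_le j h1))
      (Polynomial.natDegree_pow_le_of_le (m - j) h2)
  refine lt_of_le_of_lt Polynomial.degree_le_natDegree ?_
  have : (Polynomial.C (P.coeff j) * (Polynomial.C a * Polynomial.X + Polynomial.C b) ^ j *
      (Polynomial.C c * Polynomial.X + Polynomial.C d) ^ (m - j)).natDegree < m + 1 := by omega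
  exact_mod_cast this

theorem natDegree_lt_of_degree_lt' (P : ℂ[X]) (n : ℕ) (hP : P.degree < (n + 1 : ℕ)) :
    P.natDegree < n + 1 := by
  by_cases h0 : P = 0
  · simp [h0]
  · exact (Polynomial.natDegree_lt_iff_degree_lt h0).mpr hP

theorem eval_polySlash_eq (m : ℕ) (a b c d : ℂ) (P : ℂ[X]) (x : ℂ) :
    (polySlash m a b c d P).eval x =
      ∑ j ∈ Finset.range (m + 1), P.coeff j * (a * x + b) ^ j * (c * x + d) ^ (m - j) := by
  simp [polySlash, Polynomial.eval_finsetSum]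

/-- the key algebraic identity. -/
theorem eval_div_mul_pow (m : ℕ) (P : ℂ[X]) (hP : P.degree < (m + 1 : ℕ)) (n dn : ℂ)
    (hdn : dn ≠ 0) :
    P.eval (n / dn) * dn ^ m =
      ∑ j ∈ Finset.range (m + 1), P.coeff j * n ^ j * dn ^ (m - j) := by
  rw [Polynomial.eval_eq_sum_range' (natDegree_lt_of_degree_lt' P m hP), Finset.sum_mul]
  refine Finset.sum_congr rfl fun j hj => ?_
  have hj' : j ≤ m := Nat.lt_succ_iff.mp (Finset.mem_range.mp hj)
  have : dn ^ m = dn ^ j * dn ^ (m - j) := by rw [← pow_add, Nat.add_sub_cancel' hj']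
  rw [this, div_pow]
  field_simp

/-- `polySlash` computes the weight `-m` slash action of `SL(2, ℤ)` on polynomial functions. -/
theorem eval_polySlash_SL (m : ℕ) (γ : SL(2, ℤ)) (P : ℂ[X]) (hP : P.degree < (m + 1 : ℕ))
    (τ : ℍ) :
    (polySlash m ((γ 0 0 : ℤ) : ℂ) ((γ 0 1 : ℤ) : ℂ) ((γ 1 0 : ℤ) : ℂ) ((γ 1 1 : ℤ) : ℂ) P).eval
        (τ : ℂ) =
      ((fun z : ℍ => P.eval (z : ℂ)) ∣[-(m : ℤ)] γ) τ := by
  rw [ModularForm.SL_slash_apply, neg_neg, zpow_natCast, eval_polySlash_eq]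
  have hden : denom (Matrix.SpecialLinearGroup.toGL
      ((Matrix.SpecialLinearGroup.map (Int.castRingHom ℝ)) γ)) (τ : ℂ) ≠ 0 := denom_ne_zero _ τ
  have hcoe : ((γ • τ : ℍ) : ℂ) =
      (((γ 0 0 : ℤ) : ℂ) * τ + ((γ 0 1 : ℤ) : ℂ)) / (((γ 1 0 : ℤ) : ℂ) * τ + ((γ 1 1 : ℤ) : ℂ)) := by
    rw [UpperHalfPlane.coe_specialLinearGroup_apply]
    simp
  have hden_eq : denom (Matrix.SpecialLinearGroup.toGL
      ((Matrix.SpecialLinearGroup.map (Int.castRingHom ℝ)) γ)) (τ : ℂ) =
      ((γ 1 0 : ℤ) : ℂ) * τ + ((γ 1 1 : ℤ) : ℂ) := by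
    simp [denom]
  rw [hden_eq] at hden ⊢
  rw [hcoe, eval_div_mul_pow m P hP _ _ hden]

/-- `polySlash` for an upper triangular integer matrix of positive determinant. -/
theorem eval_polySlash_upper (m : ℕ) (g : GL (Fin 2) ℝ) (a b d : ℤ)
    (h00 : g 0 0 = a) (h01 : g 0 1 = b) (h10 : g 1 0 = 0) (h11 : g 1 1 = d)
    (hdet : 0 < g.val.det) (P : ℂ[X]) (hP : P.degree < (m + 1 : ℕ)) (τ : ℍ) :
    (polySlash m (a : ℂ) (b : ℂ) 0 (d : ℂ) P).eval (τ : ℂ) =
      ((g.val.det : ℝ) : ℂ) ^ (m + 1) * ((fun z : ℍ => P.eval (z : ℂ)) ∣[-(m : ℤ)] g) τ := by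
  have hdetv : g.val.det = (a : ℝ) * (d : ℝ) := by
    rw [Matrix.det_fin_two, h00, h01, h10, h11]; ring
  have had : (0 : ℝ) < (a : ℝ) * (d : ℝ) := hdetv ▸ hdet
  have hd0 : (d : ℂ) ≠ 0 := by
    intro h0
    have : (d : ℝ) = 0 := by exact_mod_cast h0
    rw [this, mul_zero] at had
    exact lt_irrefl _ had
  have ha0 : (a : ℂ) ≠ 0 := by
    intro h0
    have : (a : ℝ) = 0 := by exact_mod_cast h0
    rw [this, zero_mul] at had
    exact lt_irrefl _ had
  have hσ : ∀ x : ℂ, σ g x = x := fun x => by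
    simp [σ, hdet]
  have hden_eq : denom g (τ : ℂ) = (d : ℂ) := by
    simp [denom, h10, h11]
  have hcoe : ((g • τ : ℍ) : ℂ) = ((a : ℂ) * τ + (b : ℂ)) / (d : ℂ) := by
    rw [UpperHalfPlane.coe_smul_of_det_pos hdet]
    simp [num, denom, h00, h01, h10, h11]
  have habs : |g.det.val| = (a : ℝ) * (d : ℝ) := by
    rw [Matrix.GeneralLinearGroup.val_det_apply, hdetv, abs_of_pos had]
  rw [ModularForm.slash_apply, hσ, hden_eq, hcoe, habs, hdetv, neg_neg, zpow_natCast,
    eval_polySlash_eq]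
  have e1 : -(m : ℤ) - 1 = -((m + 1 : ℕ) : ℤ) := by push_cast; ring
  rw [e1, zpow_neg, zpow_natCast]
  have key := eval_div_mul_pow m P hP ((a : ℂ) * τ + (b : ℂ)) (d : ℂ) hd0
  have hsum : ∑ j ∈ Finset.range (m + 1), P.coeff j * ((a : ℂ) * τ + (b : ℂ)) ^ j *
      ((0 : ℂ) * τ + (d : ℂ)) ^ (m - j) =
      ∑ j ∈ Finset.range (m + 1), P.coeff j * ((a : ℂ) * τ + (b : ℂ)) ^ j * (d : ℂ) ^ (m - j) := by
    simp
  rw [hsum, ← key]
  have hne : (((a : ℝ) * (d : ℝ) : ℝ) : ℂ) ^ (m + 1) ≠ 0 := by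
    apply pow_ne_zero
    push_cast
    exact mul_ne_zero ha0 hd0
  field_simp

end Fermat.Agent.S22
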