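import Fermat.Agent.S22.Bol
import Fermat.Agent.S22.Poly
import Fermat.Agent.S22.Cuspidal
import Fermat.Prelude.Thm_CongruenceSubgroup_one_mem_strictPeriods_Gamma0

set_option autoImplicit false

namespace Fermat.Agent.S22

open UpperHalfPlane hiding I
open Real Complex Filter
open scoped Manifold MatrixGroups ModularForm Topology Polynomial
open Derivative

theorem sub_slash (k : ℤ) (γ : SL(2, ℤ)) (F G : ℍ → ℂ) :
    (F - G) ∣[k] γ = F ∣[k] γ - G ∣[k] γ := by
  rw [sub_eq_add_neg, SlashAction.add_slash, SlashAction.neg_slash, ← sub_eq_add_neg]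

theorem mdiff_SL_slash {F : ℍ → ℂ} (hF : MDiff F) (k : ℤ) (γ : SL(2, ℤ)) :
    MDiff (F ∣[k] γ) := by
  rw [ModularForm.SL_slash]
  exact hF.slash k _

/-- the imaginary axis tends to `i∞`. -/
theorem tendsto_ofComplex_mul_I :
    Tendsto (fun y : ℝ => ofComplex ((y : ℂ) * I)) atTop atImInfty := by
  rw [atImInfty, tendsto_comap_iff]
  refine tendsto_id.congr' ?_
  filter_upwards [eventually_gt_atTop (0 : ℝ)] with y hy
  have him : 0 < ((y : ℂ) * I).im := by simpa using hy
  simp [Function.comp_apply, ofComplex_apply_of_im_pos him, UpperHalfPlane.im]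

/-- a polynomial function on `ℍ` which tends to zero at `i∞` is zero. -/
theorem poly_eq_zero_of_tendsto_atImInfty (P : ℂ[X]) {Q : ℍ → ℂ}
    (hQ : ∀ τ : ℍ, Q τ = P.eval (τ : ℂ)) (h0 : Tendsto Q atImInfty (𝓝 0)) : P = 0 := by
  apply poly_eq_zero_of_tendsto
  refine (h0.comp tendsto_ofComplex_mul_I).congr' ?_
  filter_upwards [eventually_gt_atTop (0 : ℝ)] with y hy
  have him : 0 < ((y : ℂ) * I).im := by simpa using hy
  simp [Function.comp_apply, hQ, ofComplex_apply_of_im_pos him]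

variable {N : ℕ} (m : ℕ)

/-- a cusp form on `Γ₀(N)` is cuspidal periodic of period 1. -/
theorem isCuspidalPeriodic_cuspForm {k : ℤ} (f : CuspForm (CongruenceSubgroup.Gamma0 N) k) :
    IsCuspidalPeriodic 1 (⇑f) := by
  have hΓ := CongruenceSubgroup.one_mem_strictPeriods_Gamma0 N
  have : Fact (IsCusp OnePoint.infty
      (Subgroup.map (Matrix.SpecialLinearGroup.mapGL ℝ) (CongruenceSubgroup.Gamma0 N))) :=
    ⟨Subgroup.isCusp_of_mem_strictPeriods one_pos hΓ⟩
  exact isCuspidalPeriodic_of_periodic one_pos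
    (SlashInvariantFormClass.periodic_comp_ofComplex f hΓ) (CuspFormClass.holo f)
    (CuspFormClass.zero_at_infty f)

theorem exists_eichler (f : CuspForm (CongruenceSubgroup.Gamma0 N) ((m : ℤ) + 2)) :
    ∃ G : ℍ → ℂ, IsCuspidalPeriodic 1 G ∧ D^[m + 1] G = ⇑f :=
  (isCuspidalPeriodic_cuspForm f).exists_iterate_primitive one_pos (m + 1)

/-- uniqueness of cuspidal periodic iterated primitives (any period `h > 0`). -/
theorem eichler_unique {h : ℝ} (hh : 0 < h) (n : ℕ) {G₁ G₂ : ℍ → ℂ}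
    (h₁ : IsCuspidalPeriodic h G₁) (h₂ : IsCuspidalPeriodic h G₂)
    (hD : D^[n] G₁ = D^[n] G₂) : G₁ = G₂ := by
  have hQ : IsCuspidalPeriodic h (G₁ - G₂) := h₁.sub h₂
  have hD0 : D^[n] (G₁ - G₂) = 0 := by
    rw [iterate_D_sub n (h₁.mdiff hh) (h₂.mdiff hh), hD, sub_self]
  obtain ⟨P, -, hP⟩ := exists_poly_of_iterate_D_eq_zero n (hQ.mdiff hh) hD0
  have hP0 : P = 0 := poly_eq_zero_of_tendsto_atImInfty P hP (hQ.tendsto_atImInfty hh)
  funext τ
  have := hP τ
  rw [hP0, Polynomial.eval_zero, Pi.sub_apply, sub_eq_zero] at this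
  exact this

/-- The Eichler integral of a cusp form of weight `m + 2`. -/
noncomputable def eichler (f : CuspForm (CongruenceSubgroup.Gamma0 N) ((m : ℤ) + 2)) : ℍ → ℂ :=
  (exists_eichler m f).choose

theorem eichler_cuspidal (f : CuspForm (CongruenceSubgroup.Gamma0 N) ((m : ℤ) + 2)) :
    IsCuspidalPeriodic 1 (eichler m f) :=
  (exists_eichler m f).choose_spec.1

theorem iterate_D_eichler (f : CuspForm (CongruenceSubgroup.Gamma0 N) ((m : ℤ) + 2)) :
    D^[m + 1] (eichler m f) = ⇑f :=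
  (exists_eichler m f).choose_spec.2

theorem eichler_mdiff (f : CuspForm (CongruenceSubgroup.Gamma0 N) ((m : ℤ) + 2)) :
    MDiff (eichler m f) :=
  (eichler_cuspidal m f).mdiff one_pos

theorem eichler_add (f g : CuspForm (CongruenceSubgroup.Gamma0 N) ((m : ℤ) + 2)) :
    eichler m (f + g) = eichler m f + eichler m g := by
  refine eichler_unique one_pos (m + 1) (eichler_cuspidal m (f + g))
    ((eichler_cuspidal m f).add (eichler_cuspidal m g)) ?_
  rw [iterate_D_add _ (eichler_mdiff m f) (eichler_mdiff m g), iterate_D_eichler,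
    iterate_D_eichler, iterate_D_eichler]
  rfl

theorem eichler_smul (c : ℂ) (f : CuspForm (CongruenceSubgroup.Gamma0 N) ((m : ℤ) + 2)) :
    eichler m (c • f) = c • eichler m f := by
  refine eichler_unique one_pos (m + 1) (eichler_cuspidal m (c • f))
    ((eichler_cuspidal m f).smul c) ?_
  rw [iterate_D_smul _ c (eichler_mdiff m f), iterate_D_eichler, iterate_D_eichler]
  rfl

theorem slash_eq_self_of_mem_Gamma0 {k : ℤ} (f : CuspForm (CongruenceSubgroup.Gamma0 N) k)
    (γ : CongruenceSubgroup.Gamma0 N) : (⇑f) ∣[k] (γ : SL(2, ℤ)) = ⇑f := by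
  rw [ModularForm.SL_slash]
  exact SlashInvariantFormClass.slash_action_eq f _
    (Subgroup.mem_map_of_mem (Matrix.SpecialLinearGroup.mapGL ℝ) γ.2)

theorem exists_period (f : CuspForm (CongruenceSubgroup.Gamma0 N) ((m : ℤ) + 2))
    (γ : CongruenceSubgroup.Gamma0 N) :
    ∃ P : ℂ[X], P.degree < (m + 1 : ℕ) ∧
      ∀ τ : ℍ, (eichler m f ∣[-(m : ℤ)] (γ : SL(2, ℤ))) τ - eichler m f τ = P.eval (τ : ℂ) := by
  have hG := eichler_mdiff m f
  have hGs : MDiff (eichler m f ∣[-(m : ℤ)] (γ : SL(2, ℤ))) := mdiff_SL_slash hG _ _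
  have hD0 : D^[m + 1] (eichler m f ∣[-(m : ℤ)] (γ : SL(2, ℤ)) - eichler m f) = 0 := by
    rw [iterate_D_sub _ hGs hG, bol' m hG, iterate_D_eichler, slash_eq_self_of_mem_Gamma0,
      sub_self]
  obtain ⟨P, hdeg, hP⟩ := exists_poly_of_iterate_D_eq_zero (m + 1) (hGs.sub hG) hD0
  exact ⟨P, hdeg, fun τ => hP τ⟩

/-- The period polynomial. -/
noncomputable def period (f : CuspForm (CongruenceSubgroup.Gamma0 N) ((m : ℤ) + 2))
    (γ : CongruenceSubgroup.Gamma0 N) : ℂ[X] :=
  (exists_period m f γ).choose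

theorem period_degree_lt (f : CuspForm (CongruenceSubgroup.Gamma0 N) ((m : ℤ) + 2))
    (γ : CongruenceSubgroup.Gamma0 N) : (period m f γ).degree < (m + 1 : ℕ) :=
  (exists_period m f γ).choose_spec.1

theorem period_spec (f : CuspForm (CongruenceSubgroup.Gamma0 N) ((m : ℤ) + 2))
    (γ : CongruenceSubgroup.Gamma0 N) (τ : ℍ) :
    (eichler m f ∣[-(m : ℤ)] (γ : SL(2, ℤ))) τ - eichler m f τ = (period m f γ).eval (τ : ℂ) :=
  (exists_period m f γ).choose_spec.2 τ

theorem period_spec' (f : CuspForm (CongruenceSubgroup.Gamma0 N) ((m : ℤ) + 2))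
    (γ : CongruenceSubgroup.Gamma0 N) :
    eichler m f ∣[-(m : ℤ)] (γ : SL(2, ℤ)) - eichler m f =
      fun τ : ℍ => (period m f γ).eval (τ : ℂ) :=
  funext fun τ => period_spec m f γ τ

/-- characterisation of the period polynomial. -/
theorem period_eq_of_eval (f : CuspForm (CongruenceSubgroup.Gamma0 N) ((m : ℤ) + 2))
    (γ : CongruenceSubgroup.Gamma0 N) (P : ℂ[X])
    (hP : ∀ τ : ℍ, (eichler m f ∣[-(m : ℤ)] (γ : SL(2, ℤ))) τ - eichler m f τ = P.eval (τ : ℂ)) :
    period m f γ = P := by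
  rw [← sub_eq_zero]
  apply poly_eq_zero_of_eval_uhp
  intro τ
  rw [Polynomial.eval_sub, ← period_spec, hP, sub_self]

theorem period_add (f g : CuspForm (CongruenceSubgroup.Gamma0 N) ((m : ℤ) + 2))
    (γ : CongruenceSubgroup.Gamma0 N) :
    period m (f + g) γ = period m f γ + period m g γ := by
  apply period_eq_of_eval
  intro τ
  rw [Polynomial.eval_add, ← period_spec, ← period_spec, eichler_add, SlashAction.add_slash]
  simp only [Pi.add_apply]
  ring

theorem period_smul (c : ℂ) (f : CuspForm (CongruenceSubgroup.Gamma0 N) ((m : ℤ) + 2))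
    (γ : CongruenceSubgroup.Gamma0 N) :
    period m (c • f) γ = c • period m f γ := by
  apply period_eq_of_eval
  intro τ
  rw [Polynomial.eval_smul, ← period_spec, eichler_smul, ModularForm.SL_smul_slash]
  simp only [Pi.smul_apply, smul_eq_mul]
  ring

theorem period_one (f : CuspForm (CongruenceSubgroup.Gamma0 N) ((m : ℤ) + 2)) :
    period m f 1 = 0 := by
  apply period_eq_of_eval
  intro τ
  rw [Polynomial.eval_zero]
  have : eichler m f ∣[-(m : ℤ)] (((1 : CongruenceSubgroup.Gamma0 N) : SL(2, ℤ))) = eichler m f := by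
    rw [OneMemClass.coe_one, SlashAction.slash_one]
  rw [this, sub_self]

/-- cocycle relation. -/
theorem period_mul (f : CuspForm (CongruenceSubgroup.Gamma0 N) ((m : ℤ) + 2))
    (γ δ : CongruenceSubgroup.Gamma0 N) :
    period m f (γ * δ) =
      polySlash m (((δ : SL(2, ℤ)) 0 0 : ℤ) : ℂ) (((δ : SL(2, ℤ)) 0 1 : ℤ) : ℂ)
        (((δ : SL(2, ℤ)) 1 0 : ℤ) : ℂ) (((δ : SL(2, ℤ)) 1 1 : ℤ) : ℂ) (period m f γ)
      + period m f δ := by
  apply period_eq_of_eval
  intro τ
  rw [Polynomial.eval_add, eval_polySlash_SL m _ _ (period_degree_lt m f γ), ← period_spec',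
    ← period_spec, sub_slash, MulMemClass.coe_mul, SlashAction.slash_mul]
  simp only [Pi.sub_apply]
  ring

/-- coefficient functionals of period polynomials. -/
noncomputable def periodFunctional (γ : CongruenceSubgroup.Gamma0 N) (j : ℕ) :
    Module.Dual ℂ (CuspForm (CongruenceSubgroup.Gamma0 N) ((m : ℤ) + 2)) where
  toFun f := (period m f γ).coeff j
  map_add' f g := by rw [period_add, Polynomial.coeff_add]
  map_smul' c f := by rw [period_smul, Polynomial.coeff_smul]; rfl

theorem periodFunctional_apply (γ : CongruenceSubgroup.Gamma0 N) (j : ℕ)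
    (f : CuspForm (CongruenceSubgroup.Gamma0 N) ((m : ℤ) + 2)) :
    periodFunctional m γ j f = (period m f γ).coeff j := rfl

/-- the period lattice. -/
noncomputable def periodLattice :
    Submodule ℤ (Module.Dual ℂ (CuspForm (CongruenceSubgroup.Gamma0 N) ((m : ℤ) + 2))) :=
  Submodule.span ℤ (Set.range fun x : CongruenceSubgroup.Gamma0 N × ℕ =>
    periodFunctional m x.1 x.2)

theorem periodFunctional_mem (γ : CongruenceSubgroup.Gamma0 N) (j : ℕ) :
    periodFunctional m γ j ∈ periodLattice (N := N) m :=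
  Submodule.subset_span ⟨(γ, j), rfl⟩

end Fermat.Agent.S22
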