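import Fermat.Agent.S22.Eichler
import Fermat.Prelude.Thm_ModularForm_sturm_bound_Gamma0
import Fermat.Prelude.Thm_Subgroup_IsArithmetic_exists_nat_mem_strictPeriods_conj

set_option autoImplicit false

namespace Fermat.Agent.S22

open UpperHalfPlane hiding I
open Real Complex Filter
open scoped Manifold MatrixGroups ModularForm Topology Polynomial Pointwise
open Derivative

/-- from periodicity of `F ∘ ofComplex` to invariance under real translation. -/
theorem vadd_eq_of_periodic {F : ℍ → ℂ} {h : ℝ} (hper : Function.Periodic (F ∘ ofComplex) h)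
    (τ : ℍ) : F (h +ᵥ τ) = F τ := by
  have h1 := hper (τ : ℂ)
  have him : 0 < ((τ : ℂ) + h).im := by simpa using τ.im_pos
  simp only [Function.comp_apply, ofComplex_apply, ofComplex_apply_of_im_pos him] at h1
  rw [← h1]
  congr 1
  ext
  simp [add_comm]

variable {N : ℕ} [NeZero N] (m : ℕ)

/-- the Eichler integral of a form with vanishing periods, as a slash invariant form. -/
noncomputable def eichlerSIF (g : CuspForm (CongruenceSubgroup.Gamma0 N) ((m : ℤ) + 2))
    (h : ∀ γ : CongruenceSubgroup.Gamma0 N, period m g γ = 0) :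
    SlashInvariantForm (CongruenceSubgroup.Gamma0 N : Subgroup (GL (Fin 2) ℝ)) (-(m : ℤ)) where
  toFun := eichler m g
  slash_action_eq' := by
    rintro _ ⟨γ, hγ, rfl⟩
    have h1 := period_spec' m g ⟨γ, hγ⟩
    rw [h ⟨γ, hγ⟩] at h1
    have h2 : eichler m g ∣[-(m : ℤ)] γ - eichler m g = 0 := by
      rw [h1]; funext τ; simp
    exact sub_eq_zero.mp h2

omit [NeZero N] in
theorem eichlerSIF_coe (g : CuspForm (CongruenceSubgroup.Gamma0 N) ((m : ℤ) + 2))
    (h : ∀ γ : CongruenceSubgroup.Gamma0 N, period m g γ = 0) :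
    ⇑(eichlerSIF m g h) = eichler m g := rfl

/-- boundedness at every cusp of the Eichler integral of a form with vanishing periods. -/
theorem isBoundedAtImInfty_eichler_slash
    (g : CuspForm (CongruenceSubgroup.Gamma0 N) ((m : ℤ) + 2))
    (h : ∀ γ : CongruenceSubgroup.Gamma0 N, period m g γ = 0) (δ : SL(2, ℤ)) :
    IsBoundedAtImInfty (eichler m g ∣[-(m : ℤ)] δ) := by
  obtain ⟨M, hM, hMper⟩ := Subgroup.IsArithmetic.exists_nat_mem_strictPeriods_conj
    (CongruenceSubgroup.Gamma0 N : Subgroup (GL (Fin 2) ℝ))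
  have hM' : (0 : ℝ) < (M : ℝ) := by exact_mod_cast hM
  have hper := hMper δ⁻¹
  rw [map_inv] at hper
  -- the translated cusp form
  set u : CuspForm (ConjAct.toConjAct (Matrix.SpecialLinearGroup.mapGL ℝ δ)⁻¹ •
      (CongruenceSubgroup.Gamma0 N : Subgroup (GL (Fin 2) ℝ))) ((m : ℤ) + 2) :=
    CuspForm.translate g (Matrix.SpecialLinearGroup.mapGL ℝ δ) with hu
  have hu_coe : (⇑u : ℍ → ℂ) = (⇑g) ∣[(m : ℤ) + 2] δ := rfl
  have : Fact (IsCusp OnePoint.infty (ConjAct.toConjAct (Matrix.SpecialLinearGroup.mapGL ℝ δ)⁻¹ •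
      (CongruenceSubgroup.Gamma0 N : Subgroup (GL (Fin 2) ℝ)))) :=
    ⟨Subgroup.isCusp_of_mem_strictPeriods hM' hper⟩
  have hu_cusp : IsCuspidalPeriodic (M : ℝ) (⇑u) :=
    isCuspidalPeriodic_of_periodic hM' (SlashInvariantFormClass.periodic_comp_ofComplex u hper)
      (CuspFormClass.holo u) (CuspFormClass.zero_at_infty u)
  obtain ⟨E, hE, hDE⟩ := hu_cusp.exists_iterate_primitive hM' (m + 1)
  -- the translated Eichler integral
  set Gs : SlashInvariantForm (ConjAct.toConjAct (Matrix.SpecialLinearGroup.mapGL ℝ δ)⁻¹ •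
      (CongruenceSubgroup.Gamma0 N : Subgroup (GL (Fin 2) ℝ))) (-(m : ℤ)) :=
    SlashInvariantForm.translate (eichlerSIF m g h) (Matrix.SpecialLinearGroup.mapGL ℝ δ) with hGs
  have hGs_coe : (⇑Gs : ℍ → ℂ) = eichler m g ∣[-(m : ℤ)] δ := rfl
  have hGs_per : Function.Periodic ((eichler m g ∣[-(m : ℤ)] δ) ∘ ofComplex) (M : ℝ) := by
    rw [← hGs_coe]
    exact SlashInvariantFormClass.periodic_comp_ofComplex Gs hper
  have hG := eichler_mdiff m g
  have hGδ : MDiff (eichler m g ∣[-(m : ℤ)] δ) := mdiff_SL_slash hG _ _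
  have hEm : MDiff E := hE.mdiff hM'
  have hD0 : D^[m + 1] (eichler m g ∣[-(m : ℤ)] δ - E) = 0 := by
    rw [iterate_D_sub _ hGδ hEm, bol' m hG, iterate_D_eichler, hDE, hu_coe, sub_self]
  obtain ⟨P, -, hP⟩ := exists_poly_of_iterate_D_eq_zero (m + 1) (hGδ.sub hEm) hD0
  have hPper : ∀ τ : ℍ, P.eval ((τ : ℂ) + (M : ℝ)) = P.eval (τ : ℂ) := by
    intro τ
    have h1 := hP ((M : ℝ) +ᵥ τ)
    have h2 := hP τ
    rw [Pi.sub_apply, vadd_eq_of_periodic hGs_per, hE.vadd_eq hM', ← Pi.sub_apply, h2,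
      UpperHalfPlane.coe_vadd] at h1
    rw [h1, add_comm]
  obtain ⟨c, hc⟩ := poly_eval_const_of_periodic P (M : ℝ) hM'.ne' hPper
  have heq : eichler m g ∣[-(m : ℤ)] δ = E + fun _ => c := by
    funext τ
    have h2 := hP τ
    rw [hc, Pi.sub_apply] at h2
    simp only [Pi.add_apply]
    rw [← h2]
    ring
  rw [heq]
  exact (hE.isZeroAtImInfty hM').isBoundedAtImInfty.add (Filter.const_boundedAtFilter _ c)

/-- the Eichler integral of a form with vanishing periods, as a modular form of weight `-m`. -/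
noncomputable def eichlerMF (g : CuspForm (CongruenceSubgroup.Gamma0 N) ((m : ℤ) + 2))
    (h : ∀ γ : CongruenceSubgroup.Gamma0 N, period m g γ = 0) :
    ModularForm (CongruenceSubgroup.Gamma0 N : Subgroup (GL (Fin 2) ℝ)) (-(m : ℤ)) where
  toSlashInvariantForm := eichlerSIF m g h
  holo' := eichler_mdiff m g
  bdd_at_cusps' := by
    intro c hc
    have hc' : IsCusp c 𝒮ℒ := (Subgroup.IsArithmetic.isCusp_iff_isCusp_SL2Z _).mp hc
    exact (OnePoint.isBoundedAt_iff_forall_SL2Z hc').mpr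
      fun δ _ => isBoundedAtImInfty_eichler_slash m g h δ

/-- a cusp form all of whose period polynomials vanish is zero. -/
theorem eq_zero_of_period_eq_zero (g : CuspForm (CongruenceSubgroup.Gamma0 N) ((m : ℤ) + 2))
    (h : ∀ γ : CongruenceSubgroup.Gamma0 N, period m g γ = 0) : g = 0 := by
  have hF : eichlerMF m g h = 0 := by
    refine ModularForm.sturm_bound_Gamma0 N _ fun n hn => ?_
    have h0 : (-(m : ℤ) * ((CongruenceSubgroup.Gamma0 N).index : ℤ)).toNat = 0 := by
      apply Int.toNat_of_nonpos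
      have : (0 : ℤ) ≤ (m : ℤ) * ((CongruenceSubgroup.Gamma0 N).index : ℤ) := by positivity
      linarith
    rw [h0] at hn
    have hn0 : n = 0 := by omega
    subst hn0
    have hcoe : (⇑(eichlerMF m g h) : ℍ → ℂ) = eichler m g := rfl
    rw [hcoe, qExpansion_coeff]
    simp [((eichler_cuspidal m g).isZeroAtImInfty one_pos).cuspFunction_apply_zero one_pos]
  have hG : eichler m g = 0 := by
    have hcoe : (⇑(eichlerMF m g h) : ℍ → ℂ) = eichler m g := rfl
    rw [← hcoe, hF]
    rfl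
  have hg : (⇑g : ℍ → ℂ) = 0 := by
    rw [← iterate_D_eichler m g, hG, iterate_D_zero]
  exact DFunLike.coe_injective (hg.trans FunLike.coe_zero.symm)

end Fermat.Agent.S22
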