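import Fermat.Agent.S22.Eichler

set_option autoImplicit false

namespace Fermat.Agent.S22

open UpperHalfPlane hiding I
open Real Complex Filter
open scoped Manifold MatrixGroups ModularForm Topology Polynomial
open Derivative

theorem groupFG_SL2Z : Group.FG SL(2, ℤ) :=
  Group.fg_iff.mpr ⟨{ModularGroup.S, ModularGroup.T},
    SpecialLinearGroup.SL2Z_generators, Set.toFinite _⟩

theorem groupFG_Gamma0 (N : ℕ) [NeZero N] : Group.FG (CongruenceSubgroup.Gamma0 N) := by
  have := groupFG_SL2Z
  exact Subgroup.fg_of_index_ne_zero _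

variable {N : ℕ} (m : ℕ)

theorem periodFunctional_eq_zero_of_le (γ : CongruenceSubgroup.Gamma0 N) {j : ℕ}
    (hj : m + 1 ≤ j) : periodFunctional m γ j = 0 := by
  refine LinearMap.ext fun f => ?_
  rw [periodFunctional_apply, LinearMap.zero_apply]
  exact Polynomial.coeff_eq_zero_of_degree_lt
    (lt_of_lt_of_le (period_degree_lt m f γ) (by exact_mod_cast hj))

theorem periodFunctional_one (j : ℕ) :
    periodFunctional m (1 : CongruenceSubgroup.Gamma0 N) j = 0 := by
  refine LinearMap.ext fun f => ?_
  rw [periodFunctional_apply, period_one, Polynomial.coeff_zero, LinearMap.zero_apply]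

theorem periodFunctional_mul (γ δ : CongruenceSubgroup.Gamma0 N) (j : ℕ) :
    periodFunctional m (γ * δ) j =
      ∑ l ∈ Finset.range (m + 1),
        (slashCoeff m ((δ : SL(2, ℤ)) 0 0) ((δ : SL(2, ℤ)) 0 1) ((δ : SL(2, ℤ)) 1 0)
          ((δ : SL(2, ℤ)) 1 1) l j) • periodFunctional m γ l
      + periodFunctional m δ j := by
  refine LinearMap.ext fun f => ?_
  rw [LinearMap.add_apply, LinearMap.sum_apply, periodFunctional_apply, periodFunctional_apply,
    period_mul, Polynomial.coeff_add, polySlash_coeff]
  congr 1
  refine Finset.sum_congr rfl fun l _ => ?_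
  rw [LinearMap.smul_apply, periodFunctional_apply, zsmul_eq_mul]

/-- the period lattice is a finitely generated abelian group. -/
theorem periodLattice_fg [NeZero N] : (periodLattice (N := N) m).FG := by
  classical
  obtain ⟨S₀, hS₀⟩ := (groupFG_Gamma0 N).out
  set gens : Set (Module.Dual ℂ (CuspForm (CongruenceSubgroup.Gamma0 N) ((m : ℤ) + 2))) :=
    (fun x : CongruenceSubgroup.Gamma0 N × ℕ => periodFunctional m x.1 x.2) ''
      ((S₀ : Set (CongruenceSubgroup.Gamma0 N)) ×ˢ (Finset.range (m + 1) : Set ℕ)) with hgens
  have hfin : gens.Finite :=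
    ((S₀.finite_toSet).prod (Finset.range (m + 1)).finite_toSet).image _
  have key : ∀ γ : CongruenceSubgroup.Gamma0 N, ∀ j : ℕ,
      periodFunctional m γ j ∈ Submodule.span ℤ gens := by
    intro γ
    have hγ : γ ∈ Subgroup.closure (S₀ : Set (CongruenceSubgroup.Gamma0 N)) := by
      rw [hS₀]; exact Subgroup.mem_top γ
    induction hγ using Subgroup.closure_induction with
    | mem x hx =>
      intro j
      rcases lt_or_ge j (m + 1) with hj | hj
      · exact Submodule.subset_span ⟨(x, j), ⟨hx, by simpa using hj⟩, rfl⟩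
      · rw [periodFunctional_eq_zero_of_le m x hj]
        exact Submodule.zero_mem _
    | one =>
      intro j
      rw [periodFunctional_one]
      exact Submodule.zero_mem _
    | mul x y _ _ hx hy =>
      intro j
      rw [periodFunctional_mul]
      exact Submodule.add_mem _
        (Submodule.sum_mem _ fun l _ => Submodule.smul_mem _ _ (hx l)) (hy j)
    | inv x _ hx =>
      intro j
      have h1 := periodFunctional_mul m x x⁻¹ j
      rw [mul_inv_cancel, periodFunctional_one] at h1
      have h2 := eq_neg_of_add_eq_zero_right h1.symm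
      rw [h2]
      exact Submodule.neg_mem _
        (Submodule.sum_mem _ fun l _ => Submodule.smul_mem _ _ (hx l))
  have heq : periodLattice (N := N) m = Submodule.span ℤ gens := by
    apply le_antisymm
    · refine Submodule.span_le.mpr ?_
      rintro _ ⟨⟨γ, j⟩, rfl⟩
      exact key γ j
    · refine Submodule.span_mono ?_
      rintro _ ⟨x, -, rfl⟩
      exact ⟨x, rfl⟩
  rw [heq]
  exact Submodule.fg_span hfin

end Fermat.Agent.S22
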