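import Fermat.Agent.S22.Hecke
import Fermat.Agent.S22.Faithful
import Fermat.Agent.S22.Lattice

set_option autoImplicit false

namespace Fermat.Agent.S22

open UpperHalfPlane hiding I
open Real Complex Filter
open scoped Manifold MatrixGroups ModularForm Topology Polynomial
open Derivative

variable (N : ℕ) [NeZero N]

/-- weight `≤ 0`: no cusp forms. -/
theorem cuspForm_eq_zero_of_nonpos {k : ℤ} (hk : k ≤ 0)
    (f : CuspForm (CongruenceSubgroup.Gamma0 N) k) : f = 0 := by
  have hmf : (ModularFormClass.modularForm f : ModularForm (CongruenceSubgroup.Gamma0 N) k) = 0 := by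
    refine ModularForm.sturm_bound_Gamma0 N _ fun n hn ↦ ?_
    have h0 : (k * ((CongruenceSubgroup.Gamma0 N).index : ℤ)).toNat = 0 := by
      apply Int.toNat_of_nonpos
      have : (0 : ℤ) ≤ ((CongruenceSubgroup.Gamma0 N).index : ℤ) := by positivity
      nlinarith
    rw [h0] at hn
    have hn0 : n = 0 := by omega
    subst hn0
    exact CuspFormClass.qExpansion_coeff_zero f one_pos
      (CongruenceSubgroup.one_mem_strictPeriods_Gamma0 N)
  have hcoe : (⇑f : ℍ → ℂ) = 0 := by
    have := congrArg (fun F : ModularForm (CongruenceSubgroup.Gamma0 N) k ↦ (⇑F : ℍ → ℂ)) hmf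
    simpa using this
  exact DFunLike.coe_injective (hcoe.trans FunLike.coe_zero.symm)

omit [NeZero N] in
/-- weight `1`: no cusp forms on `Γ₀(N)` since `-1 ∈ Γ₀(N)`. -/
theorem cuspForm_eq_zero_of_weight_one
    (f : CuspForm (CongruenceSubgroup.Gamma0 N) 1) : f = 0 := by
  have hmem : (-1 : SL(2, ℤ)) ∈ CongruenceSubgroup.Gamma0 N := by
    rw [CongruenceSubgroup.Gamma0_mem]
    simp
  have h1 := slash_eq_self_of_mem_Gamma0 f ⟨-1, hmem⟩
  apply DFunLike.coe_injective
  funext τ
  have h2 := congrFun h1 τ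
  rw [ModularForm.SL_slash_apply] at h2
  have hsmul : ((-1 : SL(2, ℤ)) • τ) = τ := by
    rw [ModularGroup.SL_neg_smul, one_smul]
  have hden : denom (Matrix.SpecialLinearGroup.toGL
      ((Matrix.SpecialLinearGroup.map (Int.castRingHom ℝ)) (-1 : SL(2, ℤ)))) (τ : ℂ) = -1 := by
    simp [denom]
  simp only [hsmul, hden] at h2
  have h3 : f τ * (-1 : ℂ) ^ (-(1 : ℤ)) = f τ := h2
  rw [zpow_neg_one, inv_neg_one, mul_neg_one] at h3
  have h4 : f τ = 0 := by
    have : (2 : ℂ) * f τ = 0 := by linear_combination -h3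
    simpa using this
  simpa using h4

omit [NeZero N] in
theorem finite_of_subsingleton (k : ℤ) (S : Set ℕ) [NeZero N]
    (h : ∀ f : CuspForm (CongruenceSubgroup.Gamma0 N) k, f = 0) :
    Module.Finite ℤ (CuspForm.heckeAlgebra N k S) := by
  have hV : Subsingleton (CuspForm (CongruenceSubgroup.Gamma0 N) k) :=
    ⟨fun f g => (h f).trans (h g).symm⟩
  have hE : Subsingleton (Module.End ℂ (CuspForm (CongruenceSubgroup.Gamma0 N) k)) :=
    ⟨fun a b => LinearMap.ext fun f => Subsingleton.elim _ _⟩
  have hT : Subsingleton (CuspForm.heckeAlgebra N k S) :=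
    ⟨fun a b => Subtype.ext (Subsingleton.elim _ _)⟩
  exact Module.Finite.of_finite

variable (m : ℕ) (S : Set ℕ)

/-- the Hecke algebra preserves the period lattice. -/
theorem comp_mem_periodLattice
    {t : Module.End ℂ (CuspForm (CongruenceSubgroup.Gamma0 N) ((m : ℤ) + 2))}
    (ht : t ∈ CuspForm.heckeAlgebra N ((m : ℤ) + 2) S)
    {μ : Module.Dual ℂ (CuspForm (CongruenceSubgroup.Gamma0 N) ((m : ℤ) + 2))}
    (hμ : μ ∈ periodLattice (N := N) m) : μ.comp t ∈ periodLattice (N := N) m := by
  induction ht using Algebra.adjoin_induction generalizing μ with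
  | mem x hx =>
    rcases hx with ⟨ℓ, hℓ, hℓN, -, rfl⟩ | ⟨q, hqN, -, -, rfl⟩
    · exact periodLattice_comp_heckeT m hℓ hℓN hμ
    · exact periodLattice_comp_heckeU m hqN hμ
  | algebraMap r =>
    have : μ.comp (algebraMap ℤ (Module.End ℂ (CuspForm (CongruenceSubgroup.Gamma0 N)
        ((m : ℤ) + 2))) r) = r • μ := by
      refine LinearMap.ext fun f => ?_
      simp
    rw [this]
    exact Submodule.smul_mem _ _ hμ
  | add x y _ _ hx hy =>
    rw [LinearMap.comp_add]
    exact Submodule.add_mem _ (hx hμ) (hy hμ)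
  | mul x y _ _ hx hy =>
    have : μ.comp (x * y) = (μ.comp x).comp y := rfl
    rw [this]
    exact hy (hx hμ)

/-- the action of the Hecke algebra on the period lattice. -/
noncomputable def latticeAction :
    CuspForm.heckeAlgebra N ((m : ℤ) + 2) S →ₗ[ℤ] Module.End ℤ (periodLattice (N := N) m) where
  toFun t :=
    { toFun := fun μ => ⟨μ.1.comp t.1, comp_mem_periodLattice N m S t.2 μ.2⟩
      map_add' := fun μ ν => Subtype.ext (LinearMap.add_comp _ _ _)
      map_smul' := fun c μ => Subtype.ext (by
        refine LinearMap.ext fun f => ?_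
        simp) }
  map_add' t s := by
    refine LinearMap.ext fun μ => Subtype.ext ?_
    exact LinearMap.comp_add _ _ _
  map_smul' c t := by
    refine LinearMap.ext fun μ => Subtype.ext ?_
    refine LinearMap.ext fun f => ?_
    simp

theorem latticeAction_injective : Function.Injective (latticeAction N m S) := by
  rw [← LinearMap.ker_eq_bot, LinearMap.ker_eq_bot']
  intro t ht
  apply Subtype.ext
  refine LinearMap.ext fun f => ?_
  rw [ZeroMemClass.coe_zero, LinearMap.zero_apply]
  apply eq_zero_of_period_eq_zero m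
  intro γ
  ext j
  rw [Polynomial.coeff_zero]
  have h1 := congrArg (fun φ : Module.End ℤ (periodLattice (N := N) m) =>
    ((φ ⟨periodFunctional m γ j, periodFunctional_mem m γ j⟩ :
      periodLattice (N := N) m) : Module.Dual ℂ _) f) ht
  simpa [latticeAction, periodFunctional_apply] using h1

theorem finite_of_two_le : Module.Finite ℤ (CuspForm.heckeAlgebra N ((m : ℤ) + 2) S) := by
  have hfin : Module.Finite ℤ (periodLattice (N := N) m) :=
    Module.Finite.iff_fg.mpr (periodLattice_fg m)
  have htf : IsAddTorsionFree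
      (Module.Dual ℂ (CuspForm (CongruenceSubgroup.Gamma0 N) ((m : ℤ) + 2))) :=
    .of_isTorsionFree ℂ _
  have hfree : Module.Free ℤ (periodLattice (N := N) m) :=
    Module.free_of_finite_type_torsion_free'
  exact Module.Finite.of_injective (latticeAction N m S) (latticeAction_injective N m S)

theorem main (k : ℤ) (S : Set ℕ) : Module.Finite ℤ (CuspForm.heckeAlgebra N k S) := by
  rcases le_or_gt k 0 with hk | hk
  · exact finite_of_subsingleton N k S (cuspForm_eq_zero_of_nonpos N hk)
  · rcases eq_or_lt_of_le (show (1 : ℤ) ≤ k by omega) with h1 | h1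
    · subst h1
      exact finite_of_subsingleton N 1 S (cuspForm_eq_zero_of_weight_one N)
    · obtain ⟨m, rfl⟩ : ∃ m : ℕ, k = (m : ℤ) + 2 := ⟨(k - 2).toNat, by omega⟩
      exact finite_of_two_le N m S

end Fermat.Agent.S22
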