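import Fermat.Agent.S22.Eichler

set_option autoImplicit false

namespace Fermat.Agent.S22

open UpperHalfPlane hiding I
open Real Complex Filter
open scoped Manifold MatrixGroups ModularForm Topology Polynomial
open Derivative
open P2MW.S_ModularForm_heckeT_slash_eq_self_of_mem_Gamma0.ModularForm.HeckeSlashInvariance

theorem hecke_mdiff_const_smul (c : ℂ) {F : ℍ → ℂ} (hF : MDiff F) : MDiff (c • F) := by
  rw [UpperHalfPlane.mdifferentiable_iff] at hF ⊢
  exact hF.const_smul c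

theorem hecke_mdiff_sum {ι : Type*} (s : Finset ι) {F : ι → ℍ → ℂ}
    (hF : ∀ i ∈ s, MDiff (F i)) : MDiff (∑ i ∈ s, F i) := by
  have h : ∀ i ∈ s, DifferentiableOn ℂ (F i ∘ ofComplex) {z | 0 < z.im} :=
    fun i hi => UpperHalfPlane.mdifferentiable_iff.mp (hF i hi)
  rw [UpperHalfPlane.mdifferentiable_iff]
  have h2 : (∑ i ∈ s, F i) ∘ ofComplex = ∑ i ∈ s, (F i ∘ ofComplex) := by
    funext z
    simp [Finset.sum_apply]
  rw [h2]
  exact DifferentiableOn.sum h

/-- uniqueness of iterated primitives vanishing at `i∞`. -/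
theorem eq_of_iterate_D_eq (n : ℕ) {G₁ G₂ : ℍ → ℂ} (h₁ : MDiff G₁) (h₂ : MDiff G₂)
    (z₁ : Tendsto G₁ atImInfty (𝓝 0)) (z₂ : Tendsto G₂ atImInfty (𝓝 0))
    (hD : D^[n] G₁ = D^[n] G₂) : G₁ = G₂ := by
  have hD0 : D^[n] (G₁ - G₂) = 0 := by
    rw [iterate_D_sub n h₁ h₂, hD, sub_self]
  obtain ⟨P, -, hP⟩ := exists_poly_of_iterate_D_eq_zero n (h₁.sub h₂) hD0
  have hz : Tendsto (G₁ - G₂) atImInfty (𝓝 0) := by
    have h := z₁.sub z₂
    rw [sub_zero] at h
    exact h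
  have hP0 : P = 0 := poly_eq_zero_of_tendsto_atImInfty P hP hz
  funext τ
  have := hP τ
  rw [hP0, Polynomial.eval_zero, Pi.sub_apply, sub_eq_zero] at this
  exact this

/-- iterated derivative of the weight `-m` slash by an upper triangular matrix. -/
theorem SL_slash_eq_mapGL (F : ℍ → ℂ) (k : ℤ) (γ : SL(2, ℤ)) :
    F ∣[k] γ = F ∣[k] (Matrix.SpecialLinearGroup.mapGL ℝ γ) := rfl

theorem iterate_D_slash_hecke (m : ℕ) {F : ℍ → ℂ} (hF : MDiff F) (g : GL (Fin 2) ℝ)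
    (hg : 0 < g.val.det) (h10 : g 1 0 = 0) :
    D^[m + 1] (F ∣[-(m : ℤ)] g) =
      ((g.val.det : ℂ)⁻¹ ^ (m + 1)) • ((D^[m + 1] F) ∣[(m : ℤ) + 2] g) := by
  have h := iterate_D_slash_upper (m + 1) hF g hg h10 (-(m : ℤ))
  have e : -(m : ℤ) + 2 * ((m + 1 : ℕ) : ℤ) = (m : ℤ) + 2 := by push_cast; ring
  rw [e] at h
  exact h

variable {N : ℕ} (m : ℕ)

section abstract

variable {ι : Type} [Fintype ι] (α : ι → GL (Fin 2) ℝ) (a b d : ι → ℤ) (Dt : ℕ)
  (T : CuspForm (CongruenceSubgroup.Gamma0 N) ((m : ℤ) + 2) →ₗ[ℂ]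
    CuspForm (CongruenceSubgroup.Gamma0 N) ((m : ℤ) + 2))

/-- the Eichler integral of `T f` for a Hecke-type operator given by upper triangular cosets. -/
theorem eichler_hecke (hDt : 0 < Dt) (h10 : ∀ i, (α i) 1 0 = 0)
    (hdet : ∀ i, (α i).val.det = (Dt : ℝ))
    (hT : ∀ f : CuspForm (CongruenceSubgroup.Gamma0 N) ((m : ℤ) + 2),
      (⇑(T f) : ℍ → ℂ) = ∑ i, (⇑f) ∣[(m : ℤ) + 2] α i)
    (f : CuspForm (CongruenceSubgroup.Gamma0 N) ((m : ℤ) + 2)) :
    eichler m (T f) = ∑ i, ((Dt : ℂ) ^ (m + 1)) • (eichler m f ∣[-(m : ℤ)] α i) := by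
  have hG := eichler_mdiff m f
  have hDt' : (Dt : ℂ) ≠ 0 := by exact_mod_cast hDt.ne'
  have hterm : ∀ i, MDiff (((Dt : ℂ) ^ (m + 1)) • (eichler m f ∣[-(m : ℤ)] α i)) :=
    fun i => hecke_mdiff_const_smul _ (hG.slash _ _)
  refine eq_of_iterate_D_eq (m + 1) (eichler_mdiff m (T f))
    (hecke_mdiff_sum _ fun i _ => hterm i)
    ((eichler_cuspidal m (T f)).tendsto_atImInfty one_pos) ?_ ?_
  · have hz : ∀ i, Tendsto (((Dt : ℂ) ^ (m + 1)) • (eichler m f ∣[-(m : ℤ)] α i)) atImInfty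
        (𝓝 0) := by
      intro i
      have h1 : Tendsto (eichler m f ∣[-(m : ℤ)] α i) atImInfty (𝓝 0) :=
        UpperHalfPlane.IsZeroAtImInfty.slash _ (h10 i)
          ((eichler_cuspidal m f).isZeroAtImInfty one_pos)
      have h2 := h1.const_smul ((Dt : ℂ) ^ (m + 1))
      rw [smul_zero] at h2
      exact h2
    have h3 := tendsto_finsetSum (Finset.univ : Finset ι) fun i _ => hz i
    simp only [Finset.sum_const_zero] at h3
    refine h3.congr fun τ => ?_
    simp [Finset.sum_apply]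
  · rw [iterate_D_eichler, hT, iterate_D_sum _ _ fun i _ => hterm i]
    refine Finset.sum_congr rfl fun i _ => ?_
    have hdi : 0 < (α i).val.det := by rw [hdet i]; exact_mod_cast hDt
    rw [iterate_D_smul _ _ (hG.slash _ _), iterate_D_slash_hecke m hG (α i) hdi (h10 i),
      iterate_D_eichler, hdet i, smul_smul]
    have : (Dt : ℂ) ^ (m + 1) * (((Dt : ℝ) : ℂ))⁻¹ ^ (m + 1) = 1 := by
      rw [← mul_pow]
      have : (Dt : ℂ) * (((Dt : ℝ) : ℂ))⁻¹ = 1 := by
        push_cast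
        exact mul_inv_cancel₀ hDt'
      rw [this, one_pow]
    rw [this, one_smul]

/-- the period polynomial of `T f`. -/
theorem period_hecke (hDt : 0 < Dt)
    (h00 : ∀ i, (α i) 0 0 = a i) (h01 : ∀ i, (α i) 0 1 = b i) (h10 : ∀ i, (α i) 1 0 = 0)
    (h11 : ∀ i, (α i) 1 1 = d i) (hdet : ∀ i, (α i).val.det = (Dt : ℝ))
    (hT : ∀ f : CuspForm (CongruenceSubgroup.Gamma0 N) ((m : ℤ) + 2),
      (⇑(T f) : ℍ → ℂ) = ∑ i, (⇑f) ∣[(m : ℤ) + 2] α i)
    (γ : CongruenceSubgroup.Gamma0 N) (σ : Equiv.Perm ι) (γ' : ι → CongruenceSubgroup.Gamma0 N)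
    (hcos : ∀ i, α i * Matrix.SpecialLinearGroup.mapGL ℝ (γ : SL(2, ℤ)) =
      Matrix.SpecialLinearGroup.mapGL ℝ (γ' i : SL(2, ℤ)) * α (σ i))
    (f : CuspForm (CongruenceSubgroup.Gamma0 N) ((m : ℤ) + 2)) :
    period m (T f) γ = ∑ i, polySlash m ((a (σ i) : ℤ) : ℂ) ((b (σ i) : ℤ) : ℂ) 0
      ((d (σ i) : ℤ) : ℂ) (period m f (γ' i)) := by
  apply period_eq_of_eval
  intro τ
  have hE := eichler_hecke m α Dt T hDt h10 hdet hT f
  have hdi : ∀ i, 0 < (α i).val.det := fun i => by rw [hdet i]; exact_mod_cast hDt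
  -- the slash of the sum
  have hslash : eichler m (T f) ∣[-(m : ℤ)] (γ : SL(2, ℤ)) =
      ∑ i, ((Dt : ℂ) ^ (m + 1)) • (eichler m f ∣[-(m : ℤ)] α (σ i)) +
      ∑ i, ((Dt : ℂ) ^ (m + 1)) •
        ((fun z : ℍ => (period m f (γ' i)).eval (z : ℂ)) ∣[-(m : ℤ)] α (σ i)) := by
    rw [hE, SlashAction.sum_slash, ← Finset.sum_add_distrib]
    refine Finset.sum_congr rfl fun i _ => ?_
    rw [ModularForm.SL_smul_slash, SL_slash_eq_mapGL, ← SlashAction.slash_mul, hcos i,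
      SlashAction.slash_mul, ← SL_slash_eq_mapGL, ← smul_add, ← SlashAction.add_slash]
    congr 2
    rw [← period_spec' m f (γ' i)]
    abel
  have hperm : ∑ i, ((Dt : ℂ) ^ (m + 1)) • (eichler m f ∣[-(m : ℤ)] α (σ i)) =
      eichler m (T f) := by
    rw [hE]
    exact Equiv.sum_comp σ fun i => ((Dt : ℂ) ^ (m + 1)) • (eichler m f ∣[-(m : ℤ)] α i)
  rw [hslash, hperm, Pi.add_apply, add_sub_cancel_left, Polynomial.eval_finsetSum,
    Finset.sum_apply]
  refine Finset.sum_congr rfl fun i _ => ?_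
  rw [eval_polySlash_upper m (α (σ i)) (a (σ i)) (b (σ i)) (d (σ i)) (h00 _) (h01 _) (h10 _)
    (h11 _) (hdi _) _ (period_degree_lt m f (γ' i)) τ, hdet (σ i)]
  simp [Pi.smul_apply]

/-- stability of the period lattice under a Hecke-type operator. -/
theorem periodLattice_comp_of_cosets (hDt : 0 < Dt)
    (h00 : ∀ i, (α i) 0 0 = a i) (h01 : ∀ i, (α i) 0 1 = b i) (h10 : ∀ i, (α i) 1 0 = 0)
    (h11 : ∀ i, (α i) 1 1 = d i) (hdet : ∀ i, (α i).val.det = (Dt : ℝ))
    (hT : ∀ f : CuspForm (CongruenceSubgroup.Gamma0 N) ((m : ℤ) + 2),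
      (⇑(T f) : ℍ → ℂ) = ∑ i, (⇑f) ∣[(m : ℤ) + 2] α i)
    (hcoset : ∀ γ : CongruenceSubgroup.Gamma0 N, ∃ (σ : Equiv.Perm ι)
      (γ' : ι → CongruenceSubgroup.Gamma0 N),
      ∀ i, α i * Matrix.SpecialLinearGroup.mapGL ℝ (γ : SL(2, ℤ)) =
        Matrix.SpecialLinearGroup.mapGL ℝ (γ' i : SL(2, ℤ)) * α (σ i))
    {μ : Module.Dual ℂ (CuspForm (CongruenceSubgroup.Gamma0 N) ((m : ℤ) + 2))}
    (hμ : μ ∈ periodLattice (N := N) m) :
    μ.comp T ∈ periodLattice (N := N) m := by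
  induction hμ using Submodule.span_induction with
  | mem μ hμ =>
    obtain ⟨⟨γ, j⟩, rfl⟩ := hμ
    obtain ⟨σ, γ', hcos⟩ := hcoset γ
    have key : (periodFunctional m γ j).comp T =
        ∑ i, ∑ l ∈ Finset.range (m + 1),
          (slashCoeff m (a (σ i)) (b (σ i)) 0 (d (σ i)) l j) • periodFunctional m (γ' i) l := by
      refine LinearMap.ext fun f => ?_
      rw [LinearMap.comp_apply, periodFunctional_apply,
        period_hecke m α a b d Dt T hDt h00 h01 h10 h11 hdet hT γ σ γ' hcos f,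
        Polynomial.finsetSum_coeff, LinearMap.sum_apply]
      refine Finset.sum_congr rfl fun i _ => ?_
      have h0 : ((0 : ℤ) : ℂ) = 0 := Int.cast_zero
      rw [← h0, polySlash_coeff, LinearMap.sum_apply]
      refine Finset.sum_congr rfl fun l _ => ?_
      rw [LinearMap.smul_apply, periodFunctional_apply, zsmul_eq_mul]
    rw [key]
    exact Submodule.sum_mem _ fun i _ => Submodule.sum_mem _ fun l _ =>
      Submodule.smul_mem _ _ (periodFunctional_mem m (γ' i) l)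
  | zero => simp
  | add μ ν _ _ hμ hν =>
    rw [LinearMap.add_comp]
    exact Submodule.add_mem _ hμ hν
  | smul c μ _ hμ =>
    have : (c • μ).comp T = c • μ.comp T := by
      refine LinearMap.ext fun f => ?_
      simp
    rw [this]
    exact Submodule.smul_mem _ _ hμ

end abstract

variable [NeZero N]

/-- the period lattice is stable under precomposition with `T_p`. -/
theorem periodLattice_comp_heckeT {p : ℕ} (hp : p.Prime) (hpN : ¬ p ∣ N)
    {μ : Module.Dual ℂ (CuspForm (CongruenceSubgroup.Gamma0 N) ((m : ℤ) + 2))}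
    (hμ : μ ∈ periodLattice (N := N) m) :
    μ.comp (CuspForm.heckeTLin ((m : ℤ) + 2) hp hpN) ∈ periodLattice (N := N) m := by
  haveI : Fact p.Prime := ⟨hp⟩
  haveI : NeZero p := ⟨hp.ne_zero⟩
  have hp0 : p ≠ 0 := hp.ne_zero
  refine periodLattice_comp_of_cosets m (heckeRep p)
    (fun x => x.elim (p : ℤ) (fun _ => 1)) (fun x => x.elim 0 (fun j => (j.val : ℤ)))
    (fun x => x.elim 1 (fun _ => (p : ℤ))) p _ hp.pos ?_ ?_ ?_ ?_ ?_ ?_ ?_ hμ
  · intro x
    induction x using OnePoint.rec with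
    | infty => simp [heckeRep, ModularForm.val_heckeDiagMatrix hp0]
    | coe j => simp [heckeRep, ModularForm.val_heckeMatrix hp0]
  · intro x
    induction x using OnePoint.rec with
    | infty => simp [heckeRep, ModularForm.val_heckeDiagMatrix hp0]
    | coe j => simp [heckeRep, ModularForm.val_heckeMatrix hp0]
  · intro x
    induction x using OnePoint.rec with
    | infty => simp [heckeRep, ModularForm.val_heckeDiagMatrix hp0]
    | coe j => simp [heckeRep, ModularForm.val_heckeMatrix hp0]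
  · intro x
    induction x using OnePoint.rec with
    | infty => simp [heckeRep, ModularForm.val_heckeDiagMatrix hp0]
    | coe j => simp [heckeRep, ModularForm.val_heckeMatrix hp0]
  · intro x
    rw [← Matrix.GeneralLinearGroup.val_det_apply]
    induction x using OnePoint.rec with
    | infty => exact ModularForm.det_heckeDiagMatrix hp0
    | coe j => exact ModularForm.det_heckeMatrix hp0 _
  · intro f
    rw [CuspForm.coe_heckeTLin_apply, heckeT_eq_sum_onePoint]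
  · intro γ
    have hg : (N : ℤ) ∣ (γ : SL(2, ℤ)) 1 0 :=
      (ZMod.intCast_zmod_eq_zero_iff_dvd _ _).mp (CongruenceSubgroup.Gamma0_mem.mp γ.2)
    choose g' hg'N hmul using fun x => heckeRep_mul hpN (γ : SL(2, ℤ)) hg x
    refine ⟨MulAction.toPerm (redMatrix p (γ : SL(2, ℤ))),
      fun x => ⟨g' x, CongruenceSubgroup.Gamma0_mem.mpr
        ((ZMod.intCast_zmod_eq_zero_iff_dvd _ _).mpr (hg'N x))⟩, fun x => ?_⟩
    exact hmul x

/-- the period lattice is stable under precomposition with `U_q`. -/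
theorem periodLattice_comp_heckeU {q : ℕ} (hqN : q ∣ N)
    {μ : Module.Dual ℂ (CuspForm (CongruenceSubgroup.Gamma0 N) ((m : ℤ) + 2))}
    (hμ : μ ∈ periodLattice (N := N) m) :
    μ.comp (CuspForm.heckeULin ((m : ℤ) + 2) hqN) ∈ periodLattice (N := N) m := by
  have hq0 : q ≠ 0 := by
    rintro rfl
    exact NeZero.ne N (Nat.eq_zero_of_zero_dvd hqN)
  haveI : NeZero q := ⟨hq0⟩
  refine periodLattice_comp_of_cosets m (fun x : ZMod q => ModularForm.heckeMatrix q x.val)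
    (fun _ => 1) (fun x => (x.val : ℤ)) (fun _ => (q : ℤ)) q _ (Nat.pos_of_ne_zero hq0)
    ?_ ?_ ?_ ?_ ?_ ?_ ?_ hμ
  · intro x; simp [ModularForm.val_heckeMatrix hq0]
  · intro x; simp [ModularForm.val_heckeMatrix hq0]
  · intro x; simp [ModularForm.val_heckeMatrix hq0]
  · intro x; simp [ModularForm.val_heckeMatrix hq0]
  · intro x
    rw [← Matrix.GeneralLinearGroup.val_det_apply]
    exact ModularForm.det_heckeMatrix hq0 _
  · intro f
    rw [CuspForm.coe_heckeULin_apply, heckeU_eq_sum_zmod]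
  · intro γ
    have hcN : (N : ℤ) ∣ (γ : SL(2, ℤ)) 1 0 :=
      (ZMod.intCast_zmod_eq_zero_iff_dvd _ _).mp (CongruenceSubgroup.Gamma0_mem.mp γ.2)
    have hc : (q : ℤ) ∣ (γ : SL(2, ℤ)) 1 0 := (Int.natCast_dvd_natCast.mpr hqN).trans hcN
    choose g' hg' hmul using fun x => heckeMatrix_mul_of_dvd (γ : SL(2, ℤ)) hc x
    refine ⟨affinePerm (γ : SL(2, ℤ)) ((ZMod.intCast_zmod_eq_zero_iff_dvd _ _).mpr hc),
      fun x => ⟨g' x, ?_⟩, fun x => ?_⟩
    · rw [CongruenceSubgroup.Gamma0_mem, hg' x]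
      push_cast
      rw [CongruenceSubgroup.Gamma0_mem.mp γ.2, mul_zero]
    · exact hmul x

end Fermat.Agent.S22
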