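import Fermat.Agent.S22.Defs

set_option autoImplicit false

namespace Fermat.Agent.S22

open UpperHalfPlane hiding I
open Real Complex Filter
open scoped Manifold MatrixGroups ModularForm Topology Polynomial
open Derivative

theorem mdiff_iterate_D (n : ℕ) {F : ℍ → ℂ} (hF : MDiff F) : MDiff (D^[n] F) := by
  induction n generalizing F with
  | zero => simpa using hF
  | succ n ih =>
    rw [Function.iterate_succ_apply]
    exact ih (normalizedDerivOfComplex_mdifferentiable hF)

theorem iterate_D_add (n : ℕ) {F G : ℍ → ℂ} (hF : MDiff F) (hG : MDiff G) :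
    D^[n] (F + G) = D^[n] F + D^[n] G := by
  induction n generalizing F G with
  | zero => rfl
  | succ n ih =>
    rw [Function.iterate_succ_apply, Function.iterate_succ_apply, Function.iterate_succ_apply,
      normalizedDerivOfComplex_add F G hF hG]
    exact ih (normalizedDerivOfComplex_mdifferentiable hF)
      (normalizedDerivOfComplex_mdifferentiable hG)

theorem iterate_D_sub (n : ℕ) {F G : ℍ → ℂ} (hF : MDiff F) (hG : MDiff G) :
    D^[n] (F - G) = D^[n] F - D^[n] G := by
  induction n generalizing F G with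
  | zero => rfl
  | succ n ih =>
    rw [Function.iterate_succ_apply, Function.iterate_succ_apply, Function.iterate_succ_apply,
      normalizedDerivOfComplex_sub F G hF hG]
    exact ih (normalizedDerivOfComplex_mdifferentiable hF)
      (normalizedDerivOfComplex_mdifferentiable hG)

theorem iterate_D_smul (n : ℕ) (c : ℂ) {F : ℍ → ℂ} (hF : MDiff F) :
    D^[n] (c • F) = c • D^[n] F := by
  induction n generalizing F with
  | zero => rfl
  | succ n ih =>
    rw [Function.iterate_succ_apply, Function.iterate_succ_apply,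
      normalizedDerivOfComplex_smul c F hF]
    exact ih (normalizedDerivOfComplex_mdifferentiable hF)

theorem iterate_D_zero (n : ℕ) : D^[n] (0 : ℍ → ℂ) = 0 := by
  induction n with
  | zero => rfl
  | succ n ih =>
    rw [Function.iterate_succ_apply]
    have h0 : D (0 : ℍ → ℂ) = 0 := normalizedDerivOfComplex_const 0
    rw [h0, ih]

theorem mdiff_zero_fun : MDiff (0 : ℍ → ℂ) := mdifferentiable_const

theorem mdiff_sum {ι : Type*} (s : Finset ι) {F : ι → ℍ → ℂ}
    (hF : ∀ i ∈ s, MDiff (F i)) : MDiff (∑ i ∈ s, F i) := by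
  classical
  induction s using Finset.induction_on with
  | empty => simpa using mdiff_zero_fun
  | insert a s ha ih =>
    rw [Finset.sum_insert ha]
    exact (hF a (Finset.mem_insert_self a s)).add
      (ih fun i hi => hF i (Finset.mem_insert_of_mem hi))

theorem iterate_D_sum (n : ℕ) {ι : Type*} (s : Finset ι) {F : ι → ℍ → ℂ}
    (hF : ∀ i ∈ s, MDiff (F i)) :
    D^[n] (∑ i ∈ s, F i) = ∑ i ∈ s, D^[n] (F i) := by
  classical
  induction s using Finset.induction_on with
  | empty => simpa using iterate_D_zero n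
  | insert a s ha ih =>
    rw [Finset.sum_insert ha, Finset.sum_insert ha,
      iterate_D_add n (hF a (Finset.mem_insert_self a s))
        (mdiff_sum s fun i hi => hF i (Finset.mem_insert_of_mem hi)),
      ih fun i hi => hF i (Finset.mem_insert_of_mem hi)]

/-- one step: `D` of a slash by `γ ∈ SL(2, ℤ)`, with the correction term rewritten as a slash of
weight `k + 1`. -/
theorem D_slash_SL (k : ℤ) {F : ℍ → ℂ} (hF : MDiff F) (γ : SL(2, ℤ)) :
    D (F ∣[k] γ) = (D F) ∣[k + 2] γ -
      ((k : ℂ) * (2 * π * I)⁻¹ * ((γ 1 0 : ℤ) : ℂ)) • (F ∣[k + 1] γ) := by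
  rw [normalizedDerivOfComplex_SL_slash hF]
  ext z
  simp only [Pi.sub_apply, Pi.smul_apply, smul_eq_mul, ModularForm.SL_slash_apply]
  have hz : denom (γ : GL (Fin 2) ℝ) z ≠ 0 := denom_ne_zero _ z
  rw [show -(k + 1) = -k - 1 by ring, zpow_sub_one₀ hz]
  simp
  field_simp

/-- Bol's identity, all `F` at once (for the two-step induction). -/
theorem bol_aux (γ : SL(2, ℤ)) : ∀ n : ℕ, ∀ F : ℍ → ℂ, MDiff F →
    D^[n] (F ∣[(1 : ℤ) - n] γ) = (D^[n] F) ∣[(1 : ℤ) + n] γ := by
  intro n
  induction n using Nat.twoStepInduction with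
  | zero =>
    intro F _
    simp
  | one =>
    intro F hF
    have h := D_slash_SL 0 hF γ
    simpa using h
  | more n ih0 ih1 =>
    intro F hF
    have hDF : MDiff (D F) := normalizedDerivOfComplex_mdifferentiable hF
    -- first step
    have e1 : (1 : ℤ) - ((n + 2 : ℕ) : ℤ) = -((n : ℤ) + 1) := by push_cast; ring
    have e2 : -((n : ℤ) + 1) + 2 = (1 : ℤ) - n := by ring
    have e3 : -((n : ℤ) + 1) + 1 = (1 : ℤ) - ((n + 1 : ℕ) : ℤ) := by push_cast; ring
    have e4 : (1 : ℤ) + (n : ℤ) + 2 = (1 : ℤ) + ((n + 2 : ℕ) : ℤ) := by push_cast; ring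
    have e5 : (1 : ℤ) + (n : ℤ) + 1 = (1 : ℤ) + ((n + 1 : ℕ) : ℤ) := by push_cast; ring
    have s1 := D_slash_SL (-((n : ℤ) + 1)) hF γ
    rw [e2, e3] at s1
    have s2 := ih1 F hF
    have s3 := ih0 (D F) hDF
    have s4 := D_slash_SL ((1 : ℤ) + n) (mdiff_iterate_D n hDF) γ
    rw [e4, e5] at s4
    have hA : MDiff ((D F) ∣[(1 : ℤ) - n] γ) := by
      rw [ModularForm.SL_slash]; exact hDF.slash _ _
    have hB : MDiff (F ∣[(1 : ℤ) - ((n + 1 : ℕ) : ℤ)] γ) := by
      rw [ModularForm.SL_slash]; exact hF.slash _ _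
    have e6 : D (D^[n] (D F)) = D^[n + 2] F := by
      rw [← Function.iterate_succ_apply' D n, ← Function.iterate_succ_apply D (n + 1)]
    have e7 : D^[n] (D F) = D^[n + 1] F := by
      rw [← Function.iterate_succ_apply D n]
    rw [e1, Function.iterate_succ_apply, s1, iterate_D_sub (n + 1) hA (hB.const_smul _),
      iterate_D_smul (n + 1) _ hB, s2, Function.iterate_succ_apply' D n, s3, s4, e6, e7]
    ext z
    simp only [Pi.sub_apply, Pi.smul_apply, smul_eq_mul]
    push_cast
    ring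

/-- Bol's identity. -/
theorem bol (n : ℕ) {F : ℍ → ℂ} (hF : MDiff F) (γ : SL(2, ℤ)) :
    D^[n] (F ∣[(1 : ℤ) - n] γ) = (D^[n] F) ∣[(1 : ℤ) + n] γ :=
  bol_aux γ n F hF

/-- Bol's identity in the form used later: weights `-m` and `m + 2`. -/
theorem bol' (m : ℕ) {F : ℍ → ℂ} (hF : MDiff F) (γ : SL(2, ℤ)) :
    D^[m + 1] (F ∣[-(m : ℤ)] γ) = (D^[m + 1] F) ∣[(m : ℤ) + 2] γ := by
  have h := bol (m + 1) hF γ
  have e1 : (1 : ℤ) - ((m + 1 : ℕ) : ℤ) = -(m : ℤ) := by push_cast; ring
  have e2 : (1 : ℤ) + ((m + 1 : ℕ) : ℤ) = (m : ℤ) + 2 := by push_cast; ring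
  rw [e1, e2] at h
  exact h

/-- `D` of a slash by an upper triangular matrix of positive determinant. -/
theorem D_slash_upper {F : ℍ → ℂ} (hF : MDiff F) (g : GL (Fin 2) ℝ)
    (hg : 0 < g.val.det) (h10 : g 1 0 = 0) (k : ℤ) :
    D (F ∣[k] g) = ((g.val.det : ℂ)⁻¹) • ((D F) ∣[k + 2] g) := by
  rw [normalizedDerivOfComplex_slash hF hg]
  ext z
  simp [h10]

/-- iterated derivative of a slash by an upper triangular matrix of positive determinant. -/
theorem iterate_D_slash_upper (n : ℕ) {F : ℍ → ℂ} (hF : MDiff F) (g : GL (Fin 2) ℝ)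
    (hg : 0 < g.val.det) (h10 : g 1 0 = 0) (k : ℤ) :
    D^[n] (F ∣[k] g) = ((g.val.det : ℂ)⁻¹ ^ n) • ((D^[n] F) ∣[k + 2 * n] g) := by
  induction n generalizing F k with
  | zero => simp
  | succ n ih =>
    have hDF : MDiff (D F) := normalizedDerivOfComplex_mdifferentiable hF
    rw [Function.iterate_succ_apply, D_slash_upper hF g hg h10 k,
      iterate_D_smul n _ (hDF.slash _ _), ih hDF (k + 2), Function.iterate_succ_apply,
      smul_smul, pow_succ']
    have e : k + 2 + 2 * (n : ℤ) = k + 2 * ((n + 1 : ℕ) : ℤ) := by push_cast; ring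
    rw [e]

end Fermat.Agent.S22
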