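import Mathlib
import Fermat.Prelude.Def_CuspForm_HeckeAlgebra

set_option autoImplicit false

namespace Fermat.Agent.S22

open UpperHalfPlane hiding I
open Real Complex Filter
open scoped Manifold MatrixGroups ModularForm Topology Polynomial
open Derivative

/-- `u = g ∘ q_h` with `g` holomorphic on the open unit disc and `g 0 = 0`. -/
def IsCuspidalPeriodic (h : ℝ) (u : ℍ → ℂ) : Prop :=
  ∃ g : ℂ → ℂ, DifferentiableOn ℂ g (Metric.ball 0 1) ∧ g 0 = 0 ∧
    ∀ τ : ℍ, u τ = g (Function.Periodic.qParam h τ)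

/-- The integral weight `-m` action on polynomials of degree `≤ m`,
`P ↦ (cX+d)^m P((aX+b)/(cX+d))`. -/
noncomputable def polySlash {R : Type*} [CommRing R] (m : ℕ) (a b c d : R) (P : R[X]) : R[X] :=
  ∑ j ∈ Finset.range (m + 1),
    Polynomial.C (P.coeff j) * (Polynomial.C a * Polynomial.X + Polynomial.C b) ^ j *
      (Polynomial.C c * Polynomial.X + Polynomial.C d) ^ (m - j)

/-- integer structure constants of `polySlash`. -/
noncomputable def slashCoeff (m : ℕ) (a b c d : ℤ) (j i : ℕ) : ℤ :=
  (((Polynomial.C a * Polynomial.X + Polynomial.C b) ^ j *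
      (Polynomial.C c * Polynomial.X + Polynomial.C d) ^ (m - j) : ℤ[X])).coeff i

end Fermat.Agent.S22
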